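import Fermat.Agent.BadRed.SpecPkg

/-!
# The specialisation package for `J₀(N r)` at `r` over `ℚ̄`
-/

set_option autoImplicit false
set_option linter.unusedSectionVars false

noncomputable section

open AlgebraicCurve Module IntermediateField ModularCurve HahnSeries

namespace Fermat.Agent.ZMZ

open Fermat.Agent.BadRed Fermat.Agent.HeckeRed Fermat.Agent.FunField Fermat.Agent.Degen

local notation "Qb" => AlgebraicClosure ℚ

theorem semilinear_ext {K F : Type*} [Field K] [Field F] [Algebra K F] {g h : SemilinearAut K F}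
    (H : ∀ x : F, g • x = h • x) : g = h := by
  refine Subtype.ext (Prod.ext (RingEquiv.ext H) (RingEquiv.ext fun a => ?_))
  apply (algebraMap K F).injective
  have h1 := H (algebraMap K F a)
  rw [SemilinearAut.smul_algebraMap, SemilinearAut.smul_algebraMap] at h1
  exact h1

theorem isCoeff_unique {E : IntermediateField Qb (LaurentSeries Qb)} {σ : Qb ≃+* Qb}
    {g h : SemilinearAut Qb E} (hg : IsCoeff σ g) (hh : IsCoeff σ h) : g = h :=
  semilinear_ext fun x => Subtype.ext ((hg x).trans (hh x).symm)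

theorem heckeOperatorBar_eq {M : ℕ} [NeZero M] (l : ℕ) (hl : l.Prime) (x : JZero M) :
    heckeOperatorBar M ⟨l, hl⟩ x =
      (haveI : NeZero l := ⟨hl.ne_zero⟩
      pushPic (heckeAlphaBar Qb M l) (pullPic (heckeBetaBar Qb M l) x)) := by
  have : NeZero l := ⟨hl.ne_zero⟩
  refine (heckeOperatorAlong_apply (N := M) l x).trans ?_
  exact BadRed.correspondence_eq _ _ _ _ _ _ _ _

/-- the specialisation package for `J₀(N r)` -/
structure IsSpecJ (A : ValuationSubring Qb) [IsAlgClosed (IsLocalRing.ResidueField A)]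
    (N r n : ℕ) [NeZero N] [NeZero (N * r)] (NN Zn : AddSubgroup (JZero (N * r)))
    (sp : Zn →+ Pic0 (IsLocalRing.ResidueField A)
        (modularFunctionFieldFullC (IsLocalRing.ResidueField A) N) ×
      Pic0 (IsLocalRing.ResidueField A)
        (modularFunctionFieldFullC (IsLocalRing.ResidueField A) N)) : Prop where
  ker : ∀ x : Zn, sp x = 0 → (x : JZero (N * r)) ∈ NN
  frob : ∀ σ : Qb ≃ₐ[ℚ] Qb, A.IsFrobeniusAt σ r → ∀ y ∈ NN, σ • σ • y = (r * r) • y
  hecke : ∀ (l : ℕ) (hl : l.Prime) (_ : l ≠ r) (x : JZero (N * r)) (hx : x ∈ Zn),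
    haveI : NeZero l := ⟨hl.ne_zero⟩
    ∃ h : heckeOperatorBar (N * r) ⟨l, hl⟩ x ∈ Zn,
      sp ⟨_, h⟩ = (PIC.heckeC (IsLocalRing.ResidueField A) N l (sp ⟨x, hx⟩).1,
        PIC.heckeC (IsLocalRing.ResidueField A) N l (sp ⟨x, hx⟩).2)
  eis : ∀ (l : ℕ) (hl : l.Prime) (_ : l ≠ r) (_ : ¬ l ∣ N) (y : JZero (N * r)), n • y = 0 →
    (∀ σ ∈ A.inertiaSubgroupIn ℚ, σ • y = y) →
    heckeOperatorBar (N * r) ⟨l, hl⟩ y - (l + 1) • y ∈ Zn

/-- **The specialisation package over `ℚ̄`.** -/
theorem exists_isSpecJ {N r : ℕ} [NeZero N] [NeZero (N * r)] (hr : r.Prime) (hrN : ¬ r ∣ N)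
    (hE : NodeCount.NoEll N r) (A : ValuationSubring Qb) (hA : A.LiesOverPrime r)
    [IsAlgClosed (IsLocalRing.ResidueField A)] (ι : Qb →+* ℂ)
    {n : ℕ} (hn : ¬ r ∣ n) :
    ∃ (NN Zn : AddSubgroup (JZero (N * r))) (sp : Zn →+ Pic0 (IsLocalRing.ResidueField A)
        (modularFunctionFieldFullC (IsLocalRing.ResidueField A) N) ×
      Pic0 (IsLocalRing.ResidueField A)
        (modularFunctionFieldFullC (IsLocalRing.ResidueField A) N)),
      IsSpecJ A N r n NN Zn sp := by
  have i0 : Fact r.Prime := ⟨hr⟩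
  have i2 : CharP (IsLocalRing.ResidueField A) r := charP_residueField hr hA
  have i5 : IsLocalHom (IsLocalRing.residue A) := inferInstance
  have hN : (N : IsLocalRing.ResidueField A) ≠ 0 := fun h =>
    hrN ((CharP.cast_eq_zero_iff _ r N).mp h)
  have hn' : (n : IsLocalRing.ResidueField A) ≠ 0 := fun h =>
    hn ((CharP.cast_eq_zero_iff _ r n).mp h)
  obtain ⟨σ₀, hσ₀⟩ := Fermat.Agent.Frob.exists_isFrobeniusAt hr hA
  let d : CP.DecAut A (IsLocalRing.residue A) :=
    { σ := (σ₀ : Qb ≃+* Qb)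
      τ := MulSemiringAction.toRingAut (A.decompositionSubgroup ℚ) (IsLocalRing.ResidueField A)
        ⟨σ₀, hσ₀.mem_decompositionSubgroup⟩
      mem_iff := fun a => (mem_iff_decomp hσ₀.mem_decompositionSubgroup a).symm
      res := residue_decomp hσ₀.mem_decompositionSubgroup }
  have hd : CP.IsFrob d r := fun a => hσ₀.smul_residue_eq a
  obtain ⟨NN, Zn, sp, H⟩ := exists_isSpec (IsLocalRing.residue A) IsLocalRing.residue_surjective
    (archA hr hA) N r hrN hA (Cusps.genusFF_residue A N hN) d hd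
    (fun σ hσ => ⟨mem_iff_decomp hσ.mem_decompositionSubgroup, residue_frobenius hσ⟩) ι hE hn'
    (E := modularFunctionFieldBar (N * r)) (Igusa.modularFunctionFieldBar_eq _)
  refine ⟨NN, Zn, sp, H.ker, fun σ hσ y hy => ?_, fun l hl hlr x hx => ?_,
    fun l hl hlr hlN y hy hI => ?_⟩
  · exact H.frob _ σ hσ (isCoeff_galois _ σ) y hy
  · have j1 : Fact l.Prime := ⟨hl⟩
    have j2 : NeZero l := ⟨hl.ne_zero⟩
    have h1 := H.hecke l hlr (modularFunctionFieldBar (N * r * l)) (Igusa.modularFunctionFieldBar_eq _)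
      (heckeAlphaBar Qb (N * r) l) (heckeBetaBar Qb (N * r) l) (coe_heckeAlphaBar _ l)
      (coe_heckeBetaBar _ l) x hx
    rw [← heckeOperatorBar_eq l hl x] at h1
    exact h1
  · have j1 : Fact l.Prime := ⟨hl⟩
    have j2 : NeZero l := ⟨hl.ne_zero⟩
    have h1 := H.eis l hlr hlN (modularFunctionFieldBar (N * r * l)) (Igusa.modularFunctionFieldBar_eq _)
      (heckeAlphaBar Qb (N * r) l) (heckeBetaBar Qb (N * r) l) (coe_heckeAlphaBar _ l)
      (coe_heckeBetaBar _ l) y hy (fun g σ hσ hg => by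
        rw [isCoeff_unique hg (isCoeff_galois _ σ)]
        exact hI σ hσ)
    rw [← heckeOperatorBar_eq l hl y] at h1
    exact h1

end Fermat.Agent.ZMZ
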