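import Fermat.Agent.ZMZ.Spec
import Fermat.Agent.ZTS.TorSurj
import Fermat.Agent.NodeCount.Numerics
import Fermat.Agent.ZThm.EDat

/-!
# Lowering the level at a prime `q ≡ 1 (mod 4)` (block Z-MZ)
-/

set_option autoImplicit false
set_option linter.unusedSectionVars false

noncomputable section

open AlgebraicCurve Module IntermediateField ModularCurve HahnSeries

namespace Fermat.Agent.ZMZ

open Fermat.Agent.BadRed Fermat.Agent.HeckeRed Fermat.Agent.FunField Fermat.Agent.Degen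

local notation "Qb" => AlgebraicClosure ℚ

theorem zsmul_aux {G : Type*} [AddCommGroup G] {s u t : ℤ} {b : ℕ} {x : G}
    (h : 2 ^ b • x = 0) (hst : s * u + t * 2 ^ b = 1) : x = s • (u • x) := by
  have h7 : (2 : ℤ) ^ b • x = 0 := by
    rw [← natCast_zsmul] at h
    push_cast at h
    exact h
  calc x = (1 : ℤ) • x := (one_smul _ _).symm
    _ = (s * u + t * 2 ^ b) • x := by rw [hst]
    _ = s • (u • x) := by rw [add_smul, mul_smul, mul_smul, h7, smul_zero, add_zero]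

theorem sub_aux {G : Type*} [AddCommGroup G] {a l : ℤ} {x : G} : 
    a • x - l • x = (a - l) • x := (sub_smul _ _ _).symm

theorem nsmul_aux {G : Type*} [AddCommGroup G] {c q : ℕ} {x y z : G} (h1 : 2 ^ c • z = 
    (q * q) • (2 ^ c • y)) (h2 : x = z) : 2 ^ c • (x - q ^ 2 • y) = 0 := by
  rw [h2, smul_sub, h1, sub_eq_zero, smul_smul, smul_smul, mul_comm (q * q), sq]

theorem sp_eig {G H₁ H₂ : Type*} [AddCommGroup G] [AddCommGroup H₁] [AddCommGroup H₂]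
    {Z : AddSubgroup G} (sp : Z →+ H₁ × H₂) {y z : G} (hy : y ∈ Z) (hz : z ∈ Z) {k : ℤ}
    (h : z = k • y) {u : H₁} {v : H₂} (h2 : sp ⟨z, hz⟩ = (u, v)) :
    u = k • (sp ⟨y, hy⟩).1 ∧ v = k • (sp ⟨y, hy⟩).2 := by
  have h3 : (⟨z, hz⟩ : Z) = k • ⟨y, hy⟩ := Subtype.ext h
  rw [h3, map_zsmul] at h2
  exact ⟨(congrArg Prod.fst h2).symm, (congrArg Prod.snd h2).symm⟩

theorem sp_nsmul {G H : Type*} [AddCommGroup G] [AddCommGroup H] {Z : AddSubgroup G}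
    (sp : Z →+ H) {y : G} (hy : y ∈ Z) {k : ℕ} (h : k • y = 0) : k • sp ⟨y, hy⟩ = 0 := by
  rw [← map_nsmul]
  have : k • (⟨y, hy⟩ : Z) = 0 := Subtype.ext h
  rw [this, map_zero]

theorem mem_of_sp {G H : Type*} [AddCommGroup G] [AddCommGroup H] {Z W : AddSubgroup G}
    (sp : Z →+ H) (hW : ∀ x : Z, sp x = 0 → (x : G) ∈ W) {y : G} (hy : y ∈ Z) {k : ℕ}
    (h : k • sp ⟨y, hy⟩ = 0) : k • y ∈ W := by
  rw [← map_nsmul] at h
  exact hW _ h

theorem prod_aux {H₁ H₂ : Type*} [AddCommGroup H₁] [AddCommGroup H₂] {w : H₁ × H₂} {k b : ℕ}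
    (hb : b • w = 0) (hk : k • w ≠ 0) :
    (b • w.1 = 0 ∧ k • w.1 ≠ 0) ∨ (b • w.2 = 0 ∧ k • w.2 ≠ 0) := by
  by_cases h1 : k • w.1 = 0
  · exact Or.inr ⟨congrArg Prod.snd hb, fun h2 => hk (Prod.ext h1 h2)⟩
  · exact Or.inl ⟨congrArg Prod.fst hb, h1⟩

/-- Lifting an eigenclass of exact order at least `2 ^ c` in characteristic `q` to
characteristic zero. -/
theorem lift_class {N q : ℕ} [NeZero N] (hq : q.Prime) (hqN : ¬ q ∣ N) (hq2 : q ≠ 2)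
    (A : ValuationSubring Qb) (hA : A.LiesOverPrime q)
    [IsAlgClosed (IsLocalRing.ResidueField A)] (S : Set ℕ) (hqS : q ∈ S) (a : ℕ → ℤ)
    {u : Pic0 (IsLocalRing.ResidueField A)
      (modularFunctionFieldFullC (IsLocalRing.ResidueField A) N)} {b c : ℕ} (hc : 1 ≤ c)
    (hb : 2 ^ b • u = 0) (hu : 2 ^ (c - 1) • u ≠ 0)
    (hT : ∀ (l : ℕ) (hl : l.Prime), l ∉ S →
      haveI : NeZero l := ⟨hl.ne_zero⟩
      PIC.heckeC (IsLocalRing.ResidueField A) N l u = a l • u) :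
    ∃ z : JZero N, 2 ^ c • z = 0 ∧ 2 ^ (c - 1) • z ≠ 0 ∧
      ∀ (l : ℕ) (hl : l.Prime), l ∉ S → heckeOperatorBar N ⟨l, hl⟩ z = a l • z := by
  classical
  have i0 : Fact q.Prime := ⟨hq⟩
  have i2 : CharP (IsLocalRing.ResidueField A) q := charP_residueField hq hA
  have i4 : PerfectRing (IsLocalRing.ResidueField A) q := inferInstance
  have i5 : IsLocalHom (IsLocalRing.residue A) := inferInstance
  have hN : (N : IsLocalRing.ResidueField A) ≠ 0 := fun h =>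
    hqN ((CharP.cast_eq_zero_iff _ q N).mp h)
  -- exact order
  have hex : ∃ m, 2 ^ m • u = 0 := ⟨b, hb⟩
  obtain ⟨m, hm, hmin⟩ : ∃ m, 2 ^ m • u = 0 ∧ ∀ k < m, 2 ^ k • u ≠ 0 :=
    ⟨Nat.find hex, Nat.find_spec hex, fun k hk => Nat.find_min hex hk⟩
  have hcm : c ≤ m := by
    by_contra hcon
    apply hu
    have h1 : c - 1 = (c - 1 - m) + m := by omega
    rw [h1, _root_.pow_add, mul_smul, hm, smul_zero]
  set w := 2 ^ (m - c) • u with hw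
  have hw1 : 2 ^ c • w = 0 := by
    rw [hw, ← mul_smul, ← _root_.pow_add, show c + (m - c) = m by omega, hm]
  have hw2 : 2 ^ (c - 1) • w ≠ 0 := by
    rw [hw, ← mul_smul, ← _root_.pow_add]
    exact hmin _ (by omega)
  have hTw : ∀ (l : ℕ) (hl : l.Prime), l ∉ S →
      haveI : NeZero l := ⟨hl.ne_zero⟩
      PIC.heckeC (IsLocalRing.ResidueField A) N l w = a l • w := by
    intro l hl hlS
    have h1 := hT l hl hlS
    rw [hw, map_nsmul, h1, smul_comm]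
  -- the reduction
  obtain ⟨g, hRR, hRR₁⟩ := Fermat.Agent.Cusps.genusEq N A hN
  obtain ⟨r, hr1, hr2⟩ :=
    (dat A (IsLocalRing.residue A) IsLocalRing.residue_surjective N hN).exists_reduction hRR hRR₁
  have hr : IsReduction (dat A (IsLocalRing.residue A) IsLocalRing.residue_surjective N hN) r :=
    ⟨hr1, hr2⟩
  obtain ⟨z, hz, hzw⟩ := ZTS.exists_tors_lift A (IsLocalRing.residue A)
    IsLocalRing.residue_surjective hN hr hA (fun σ hσ => exists_of_frobenius hσ) Nat.prime_two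
    hq2.symm c w hw1
  refine ⟨z, hz, fun h0 => hw2 ?_, fun l hl hlS => ?_⟩
  · rw [← hzw, ← map_nsmul]
    have h1 := congrArg (spHom hr) h0
    rw [map_zero] at h1
    exact h1
  · have j1 : Fact l.Prime := ⟨hl⟩
    have hlq : l ≠ q := fun h => hlS (h ▸ hqS)
    exact ZTS.heckeJ_eigen_of_heckeC A (IsLocalRing.residue A) IsLocalRing.residue_surjective hN
      hr Nat.prime_two hq2.symm hz l hlq (by rw [hzw]; exact hTw l hl hlS)

/-- **Z-MZ**: lowering the level at a prime `q ≡ 1 (mod 4)`. -/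
theorem lower {M₀ q : ℕ} [NeZero M₀] [NeZero (M₀ * q)] (h2 : 2 ∣ M₀) (hq : q.Prime)
    (hq4 : q % 4 = 1) (hqM : ¬ q ∣ M₀) {D : ℕ} (hD : M₀ * q ∣ D) (a : ℕ → ℤ)
    (P : AddSubgroup (JZero (M₀ * q))) {b : ℕ} (hPb : ∀ x ∈ P, 2 ^ b • x = 0)
    (hPT : ∀ x ∈ P, ∀ (l : ℕ) (hl : l.Prime), ¬ l ∣ D →
      heckeOperatorBar (M₀ * q) ⟨l, hl⟩ x = a l • x)
    (hodd : ∃ l : ℕ, l.Prime ∧ ¬ l ∣ D ∧ Odd (a l))
    (A : ValuationSubring Qb) (hA : A.LiesOverPrime q)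
    (hI : ∀ σ ∈ A.inertiaSubgroupIn ℚ, ∀ x ∈ P, σ • x = x)
    {Φ : Qb ≃ₐ[ℚ] Qb} (hΦ : A.IsFrobeniusAt Φ q) {y : JZero (M₀ * q)} (hy : y ∈ P) {c : ℕ}
    (hc : 1 ≤ c) (hne : 2 ^ (c - 1) • (Φ • Φ • y - q ^ 2 • y) ≠ 0) :
    ∃ z : JZero M₀, 2 ^ c • z = 0 ∧ 2 ^ (c - 1) • z ≠ 0 ∧
      ∀ (l : ℕ) (hl : l.Prime), ¬ l ∣ D → heckeOperatorBar M₀ ⟨l, hl⟩ z = a l • z := by
  have i1 : IsAlgClosed (IsLocalRing.ResidueField A) := isAlgClosed_residueField A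
  have hq2 : q ≠ 2 := by
    rintro rfl
    omega
  have hqD : q ∣ D := (Dvd.intro_left M₀ rfl).trans hD
  have hMD : M₀ ∣ D := (Dvd.intro q rfl).trans hD
  have hn : ¬ q ∣ 2 ^ b := fun h => hq2 ((Nat.prime_dvd_prime_iff_eq hq Nat.prime_two).mp
    (hq.dvd_of_dvd_pow h))
  obtain ⟨NN, Zn, sp, H⟩ := exists_isSpecJ hq hqM
    (NodeCount.noEll_of_even_of_one_mod_four hq hqM h2 hq4) A hA TorsCmp.iotaQbar hn
  -- `P ≤ Zn`
  obtain ⟨l₀, hl₀, hl₀D, hal₀⟩ := hodd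
  have hl₀2 : l₀ ≠ 2 := by
    rintro rfl
    exact hl₀D (h2.trans hMD)
  have hPZ : ∀ x ∈ P, x ∈ Zn := by
    intro x hx
    have h3 := H.eis l₀ hl₀ (fun h => hl₀D (h ▸ hqD)) (fun h => hl₀D (h.trans hMD)) x (hPb x hx)
      (fun σ hσ => hI σ hσ x hx)
    rw [hPT x hx l₀ hl₀ hl₀D] at h3
    set u : ℤ := a l₀ - (l₀ + 1) with hu
    have h4 : a l₀ • x - (l₀ + 1) • x = u • x := by
      have h5 : (l₀ + 1) • x = ((l₀ : ℤ) + 1) • x := by
        rw [← natCast_zsmul]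
        push_cast
        rfl
      rw [h5]
      exact sub_aux
    rw [h4] at h3
    have hodd' : Odd u := by
      rw [hu]
      have h5 : Even ((l₀ : ℤ) + 1) := by
        have := (hl₀.odd_of_ne_two hl₀2).add_one
        exact_mod_cast this
      exact hal₀.sub_even h5
    have hcop : IsCoprime u ((2 : ℤ) ^ b) := by
      apply IsCoprime.pow_right
      rw [Int.isCoprime_iff_gcd_eq_one, Int.gcd_comm]
      exact (Int.isCoprime_iff_gcd_eq_one.mp (Int.isCoprime_two_left.mpr hodd'))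
    obtain ⟨s, t, hst⟩ := hcop
    have h6 : x = s • (u • x) := zsmul_aux (hPb x hx) hst
    rw [h6]
    exact Zn.zsmul_mem h3 s
  -- the specialisation of `y`
  have hyZ := hPZ y hy
  have hne' : 2 ^ (c - 1) • sp ⟨y, hyZ⟩ ≠ 0 := by
    intro h0
    have h2 : 2 ^ (c - 1) • y ∈ NN := mem_of_sp sp H.ker hyZ h0
    have h3 := H.frob Φ hΦ _ h2
    apply hne
    have h4 : ∀ (σ : Qb ≃ₐ[ℚ] Qb) (n : ℕ) (x : JZero (M₀ * q)), σ • (n • x) = n • (σ • x) :=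
      fun σ n x => map_nsmul (DistribSMul.toAddMonoidHom (JZero (M₀ * q)) σ) n x
    rw [h4, h4] at h3
    exact nsmul_aux h3 rfl
  have hb' : 2 ^ b • sp ⟨y, hyZ⟩ = 0 := sp_nsmul sp hyZ (hPb y hy)
  have hT : ∀ (l : ℕ) (hl : l.Prime), ¬ l ∣ D →
      haveI : NeZero l := ⟨hl.ne_zero⟩
      PIC.heckeC (IsLocalRing.ResidueField A) M₀ l (sp ⟨y, hyZ⟩).1 = a l • (sp ⟨y, hyZ⟩).1 ∧
      PIC.heckeC (IsLocalRing.ResidueField A) M₀ l (sp ⟨y, hyZ⟩).2 = a l • (sp ⟨y, hyZ⟩).2 := by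
    intro l hl hlD
    obtain ⟨h1, h2⟩ := H.hecke l hl (fun h => hlD (h ▸ hqD)) y hyZ
    exact sp_eig sp hyZ h1 (hPT y hy l hl hlD) h2
  rcases prod_aux hb' hne' with ⟨h1, h2⟩ | ⟨h1, h2⟩
  · obtain ⟨z, hz1, hz2, hz3⟩ := lift_class hq hqM hq2 A hA {l | l ∣ D} hqD a hc h1 h2
      (fun l hl hlS => (hT l hl hlS).1)
    exact ⟨z, hz1, hz2, fun l hl hlD => hz3 l hl hlD⟩
  · obtain ⟨z, hz1, hz2, hz3⟩ := lift_class hq hqM hq2 A hA {l | l ∣ D} hqD a hc h1 h2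
      (fun l hl hlS => (hT l hl hlS).2)
    exact ⟨z, hz1, hz2, fun l hl hlD => hz3 l hl hlD⟩

/-- **Z-MZ** in the form needed by Theorem Z. -/
theorem mzLower : ZThm.MZLower := by
  intro M₀ q _ _ _ h2 hq hq4 hqM D _ hD a b P hPb _ hPT hodd A hA hI Φ hΦ y hy c hc hne
  exact lower h2 hq hq4 hqM hD a P hPb (fun x hx l hl hlD => hPT l hl hlD x hx) hodd A hA hI hΦ
    hy hc hne

end Fermat.Agent.ZMZ
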